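/-
GATE-N / S48 J1-port, P3 (EIG twin), leaf S48-P3-DICT-CUSP, part 1 (helper80).

Γ-GENERIC cusp embeddings.  `F` is ANY field over `ℂ` with a ring homomorphism `real : F →+* Mer`
(realisation by meromorphic functions on `ℍ`), `jF : F` an element realised by the `j`-function,
`Γ'` the full invariance group of `real` (for the port: `± Γ₁(M)`), `N` a level such that every
translate `(real f) ∘ g` (`g ∈ SL(2,ℤ)`) has a cusp expansion in `𝕢_N` (`MerCE`, helper94).

* `CuspHyp real jF Γ' N` : the hypothesis package (what P1 delivers);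
* `cuspSigma H q : F →ₐ[ℂ] LaurentSeries ℂ` : the expansion of `(real f) ∘ a⁻¹` in `t = 𝕢_N`
  (`q = a Γ'`), `merCE_cuspSigma`;
* `cuspSigma_injective`, `cuspSigma_jF` (common value `j(t^N)`), `cuspSigma_T_smul`
  (`σ_{T q} = (t ↦ ζ_N⁻¹ t) ∘ σ_q`), `cuspSigma_norm` (norm to `ℂ(j)` = product of all expansions).

Twin of `GJ/J2/Dict/CuspC` §Input–§Sym (there the embeddings came from the formal side of S28).
-/
import Fermat.Agent.DS.P3.PDivCuspG
import Fermat.Agent.GJ.J2.Dict.CuspOrdC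
import Fermat.Agent.S24_helper66.NormCard
import Fermat.Agent.S24_helper76.CuspOrbit
import Fermat.Agent.S24.Norm
import Fermat.Agent.LevelOne_helper29.JSurj

set_option autoImplicit false
set_option linter.unusedSectionVars false
set_option linter.style.haveILetI false

open UpperHalfPlane HahnSeries IntermediateField
open scoped MatrixGroups Manifold
open Fermat.Agent.S24_helper82 Fermat.Agent.S28 Fermat.Agent.S28.CuspExp
open Fermat.Agent.GJ.TwEis (MerCE)
open Fermat.Agent.GJ.Dict.Cusp (zetaC HasMerExp)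
open Fermat.Agent.LevelOne_helper29 (jInv jInv_smul)

namespace Fermat.Agent.DS.P3.DictCusp

noncomputable section

/-! ### Complements on `MerCE` -/

section MerCE

variable {h : ℝ}

/-- a meromorphic function is determined by its cusp expansion -/
theorem merCE_eq_of_eq (hh : 0 < h) {m m' : Mer} {L : LaurentSeries ℂ} (hm : MerCE h m L)
    (hm' : MerCE h m' L) : m = m' := by
  have h1 := hm.add hh (hm'.neg hh)
  rw [add_neg_cancel] at h1
  have h2 := (h1.eq_zero_iff hh).mp rfl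
  exact add_neg_eq_zero.mp h2

variable (N : ℕ) [NeZero N]

theorem natCast_pos' : (0 : ℝ) < (N : ℝ) := by
  exact_mod_cast Nat.pos_of_ne_zero (NeZero.ne N)

theorem merCE_iff_hasMerExp {m : Mer} {L : LaurentSeries ℂ} :
    MerCE (N : ℝ) m L ↔ HasMerExp N m L := by
  constructor
  · rintro ⟨a, b, hb, ha', hb', hm, hL⟩
    exact HasMerExp.of_isMeroCusp a b hb ha' hb' hm hL
  · intro hm
    obtain ⟨a, b, hb, ha', hb', hm, hL⟩ := hm.exists_isMeroCusp
    exact ⟨a, b, hb, ha', hb', hm, hL⟩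

/-- the translation `τ ↦ τ + 1` acts on the expansions in `𝕢_N` by `t ↦ ζ_N t` -/
theorem merCE_compM_T {m : Mer} {L : LaurentSeries ℂ} (hm : MerCE (N : ℝ) m L) :
    MerCE (N : ℝ) (compM ModularGroup.T m) (scaleHom ℂ (zetaC N) L) :=
  (merCE_iff_hasMerExp N).mpr ((merCE_iff_hasMerExp N).mp hm).compM_T

/-- the translation `τ ↦ τ - 1` acts on the expansions in `𝕢_N` by `t ↦ ζ_N⁻¹ t` -/
theorem merCE_compM_T_inv {m : Mer} {L L' : LaurentSeries ℂ} (hm : MerCE (N : ℝ) m L)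
    (hm' : MerCE (N : ℝ) (compM ModularGroup.T⁻¹ m) L') :
    L' = scaleHom ℂ (zetaC N)⁻¹ L := by
  have h1 := merCE_compM_T N hm'
  rw [← compM_mul, inv_mul_cancel, compM_one] at h1
  have h2 : L = scaleHom ℂ (zetaC N) L' := hm.unique (natCast_pos' N) h1
  rw [h2, Fermat.Agent.S24_helper76.CuspOrbit.scaleHom_scaleHom, inv_mul_cancel,
    Fermat.Agent.S24_helper76.CuspOrbit.scaleHom_one_apply]

end MerCE

/-! ### The `j`-function -/

section JFun

theorem jInv_eq_jFun : (jInv : ℍ → ℂ) = jFun := by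
  funext τ
  rfl

variable (N : ℕ) [NeZero N]

/-- the expansion of `j` in `t = 𝕢_N` is `j(t^N)` -/
theorem merCE_jH {jH : Hol} (hjH : ∀ τ : ℍ, (jH : ℍ → ℂ) τ = jInv τ) :
    MerCE (N : ℝ) (algebraMap Hol Mer jH) (ModularCurve.qExpand ℂ N (ModularCurve.jqModC ℂ)) := by
  have hh := natCast_pos' N
  have hfun : (jH : ℍ → ℂ) = jFun := by
    funext τ
    rw [hjH τ, jInv_eq_jFun]
  have h1 : IsCE (N : ℝ) (jH : ℍ → ℂ) := by
    rw [hfun]
    exact isCE_jFun.period_nat N
  have h2 : cuspExp (N : ℝ) (jH : ℍ → ℂ) =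
      ModularCurve.qExpand ℂ N (ModularCurve.jqModC ℂ) := by
    rw [hfun, cuspExp_period_nat isCE_jFun N, cuspExp_jFun]
  have h3 := MerCE.of_hol hh jH (h1.isMeroCusp hh)
  rwa [h1.laurentExp_eq hh, h2] at h3

theorem compSL_jH {jH : Hol} (hjH : ∀ τ : ℍ, (jH : ℍ → ℂ) τ = jInv τ) (g : SL(2, ℤ)) :
    compSL g jH = jH := by
  apply Subtype.ext
  funext z
  show (jH : ℍ → ℂ) (g • z) = (jH : ℍ → ℂ) z
  rw [hjH, hjH, jInv_smul]

end JFun

/-! ### The hypothesis package -/

variable {F : Type*} [Field F] [Algebra ℂ F]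

/-- **The input of the cusp dictionary** (the P1 deliverables): `real` is a `ℂ`-linear realisation
of `F` by meromorphic functions, `jF ↦ j`, `Γ'` is exactly the invariance group of `real`,
`[F : ℂ(jF)] = [SL(2,ℤ) : Γ']`, and every translate of every `real f` has a cusp expansion in
`𝕢_N`. -/
structure CuspHyp (real : F →+* Mer) (jF : F) (Γ' : Subgroup SL(2, ℤ)) (N : ℕ) : Prop where
  real_const : ∀ c : ℂ, real (algebraMap ℂ F c) = algebraMap ℂ Mer c
  real_j : ∃ jH : Hol, (∀ τ : ℍ, (jH : ℍ → ℂ) τ = jInv τ) ∧ real jF = algebraMap Hol Mer jH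
  inv : ∀ γ ∈ Γ', ∀ f : F, compM γ (real f) = real f
  sep : ∀ g : SL(2, ℤ), (∀ f : F, compM g (real f) = real f) → g ∈ Γ'
  finite : FiniteDimensional ℂ⟮jF⟯ F
  deg : Nat.card (SL(2, ℤ) ⧸ Γ') = Module.finrank ℂ⟮jF⟯ F
  exp : ∀ (g : SL(2, ℤ)) (f : F), ∃ L : LaurentSeries ℂ, MerCE (N : ℝ) (compM g (real f)) L

/-- the expansions need only be given on a set of field generators -/
theorem exp_of_generators {real : F →+* Mer} {N : ℕ} [NeZero N]
    (real_const : ∀ c : ℂ, real (algebraMap ℂ F c) = algebraMap ℂ Mer c)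
    (S : Set F) (hS : IntermediateField.adjoin ℂ S = ⊤)
    (hexp : ∀ (g : SL(2, ℤ)), ∀ s ∈ S, ∃ L : LaurentSeries ℂ, MerCE (N : ℝ) (compM g (real s)) L)
    (g : SL(2, ℤ)) (f : F) : ∃ L : LaurentSeries ℂ, MerCE (N : ℝ) (compM g (real f)) L := by
  have hh := natCast_pos' N
  have hf : f ∈ IntermediateField.adjoin ℂ S := by
    rw [hS]
    exact IntermediateField.mem_top
  induction hf using IntermediateField.adjoin_induction with
  | mem x hx => exact hexp g x hx
  | algebraMap c =>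
    refine ⟨HahnSeries.C c, ?_⟩
    rw [real_const, compM_const]
    exact MerCE.const hh c
  | add x y _ _ hx hy =>
    obtain ⟨L, hL⟩ := hx
    obtain ⟨L', hL'⟩ := hy
    exact ⟨L + L', by rw [map_add, map_add]; exact hL.add hh hL'⟩
  | inv x _ hx =>
    obtain ⟨L, hL⟩ := hx
    by_cases hx0 : x = 0
    · refine ⟨0, ?_⟩
      rw [hx0, inv_zero, map_zero, map_zero]
      exact MerCE.zero hh
    · refine ⟨L⁻¹, ?_⟩
      rw [map_inv₀, map_inv₀]
      exact hL.inv hh ((map_ne_zero (compM g)).mpr ((map_ne_zero real).mpr hx0))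
  | mul x y _ _ hx hy =>
    obtain ⟨L, hL⟩ := hx
    obtain ⟨L', hL'⟩ := hy
    exact ⟨L * L', by rw [map_mul, map_mul]; exact hL.mul hh hL'⟩

namespace CuspHyp

variable {real : F →+* Mer} {jF : F} {Γ' : Subgroup SL(2, ℤ)} {N : ℕ} [NeZero N]
  (H : CuspHyp real jF Γ' N)

include H in
theorem finite_quotient : Finite (SL(2, ℤ) ⧸ Γ') := by
  have := H.finite
  apply Nat.finite_of_card_ne_zero
  rw [H.deg]
  exact Module.finrank_pos.ne'

/-- the `Fintype` structure on the coset space -/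
@[reducible] def fintypeQuotient : Fintype (SL(2, ℤ) ⧸ Γ') :=
  have := H.finite_quotient
  Fintype.ofFinite _

include H in
/-- the translates only depend on the coset `a Γ'` -/
theorem compM_inv_eq_of_coset_eq {a a' : SL(2, ℤ)}
    (h : (a : SL(2, ℤ) ⧸ Γ') = (a' : SL(2, ℤ) ⧸ Γ')) (f : F) :
    compM a⁻¹ (real f) = compM a'⁻¹ (real f) := by
  have h1 : a⁻¹ * a' ∈ Γ' := QuotientGroup.eq.mp h
  have h2 : a'⁻¹ = (a⁻¹ * a')⁻¹ * a⁻¹ := by group
  rw [h2, compM_mul, H.inv _ (inv_mem h1)]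

/-- the cusp expansion of `(real f) ∘ a⁻¹`, `q = a Γ'` -/
def cuspSer (q : SL(2, ℤ) ⧸ Γ') (f : F) : LaurentSeries ℂ :=
  (H.exp (Quotient.out q)⁻¹ f).choose

theorem merCE_cuspSer_out (q : SL(2, ℤ) ⧸ Γ') (f : F) :
    MerCE (N : ℝ) (compM (Quotient.out q)⁻¹ (real f)) (H.cuspSer q f) :=
  (H.exp (Quotient.out q)⁻¹ f).choose_spec

/-- **the defining property of the cusp embeddings** -/
theorem merCE_cuspSer (a : SL(2, ℤ)) (f : F) :
    MerCE (N : ℝ) (compM a⁻¹ (real f)) (H.cuspSer (a : SL(2, ℤ) ⧸ Γ') f) := by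
  have h := H.merCE_cuspSer_out (a : SL(2, ℤ) ⧸ Γ') f
  have h1 : ((Quotient.out (a : SL(2, ℤ) ⧸ Γ') : SL(2, ℤ)) : SL(2, ℤ) ⧸ Γ') =
      (a : SL(2, ℤ) ⧸ Γ') := QuotientGroup.out_eq' _
  rwa [H.compM_inv_eq_of_coset_eq h1 f] at h

theorem cuspSer_eq_of_merCE {a : SL(2, ℤ)} {f : F} {L : LaurentSeries ℂ}
    (hL : MerCE (N : ℝ) (compM a⁻¹ (real f)) L) : H.cuspSer (a : SL(2, ℤ) ⧸ Γ') f = L :=
  (H.merCE_cuspSer a f).unique (natCast_pos' N) hL

/-- the cusp embeddings of `F`: expansion in `t = 𝕢_N` along the coset `q` -/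
def cuspSigma (q : SL(2, ℤ) ⧸ Γ') : F →ₐ[ℂ] LaurentSeries ℂ where
  toFun := H.cuspSer q
  map_one' := by
    induction q using QuotientGroup.induction_on with | _ a => ?_
    apply H.cuspSer_eq_of_merCE
    rw [map_one, map_one]
    exact MerCE.one (natCast_pos' N)
  map_mul' x y := by
    induction q using QuotientGroup.induction_on with | _ a => ?_
    apply H.cuspSer_eq_of_merCE
    rw [map_mul, map_mul]
    exact (H.merCE_cuspSer a x).mul (natCast_pos' N) (H.merCE_cuspSer a y)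
  map_zero' := by
    induction q using QuotientGroup.induction_on with | _ a => ?_
    apply H.cuspSer_eq_of_merCE
    rw [map_zero, map_zero]
    exact MerCE.zero (natCast_pos' N)
  map_add' x y := by
    induction q using QuotientGroup.induction_on with | _ a => ?_
    apply H.cuspSer_eq_of_merCE
    rw [map_add, map_add]
    exact (H.merCE_cuspSer a x).add (natCast_pos' N) (H.merCE_cuspSer a y)
  commutes' c := by
    induction q using QuotientGroup.induction_on with | _ a => ?_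
    show H.cuspSer (a : SL(2, ℤ) ⧸ Γ') (algebraMap ℂ F c) = _
    rw [EvalBridge.algebraMap_laurent_eq_C]
    apply H.cuspSer_eq_of_merCE
    rw [H.real_const, compM_const]
    exact MerCE.const (natCast_pos' N) c

theorem cuspSigma_apply (q : SL(2, ℤ) ⧸ Γ') (f : F) : H.cuspSigma q f = H.cuspSer q f := rfl

/-- **the bridge**: `cuspSigma H (a Γ') f` is the expansion in `𝕢_N` of `(real f) ∘ a⁻¹` -/
theorem merCE_cuspSigma (a : SL(2, ℤ)) (f : F) :
    MerCE (N : ℝ) (compM a⁻¹ (real f)) (H.cuspSigma (a : SL(2, ℤ) ⧸ Γ') f) :=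
  H.merCE_cuspSer a f

theorem cuspSigma_ne_zero (q : SL(2, ℤ) ⧸ Γ') {f : F} (hf : f ≠ 0) : H.cuspSigma q f ≠ 0 :=
  (map_ne_zero (H.cuspSigma q).toRingHom).mpr hf

/-- (C2) the cusp embeddings are pairwise distinct -/
theorem cuspSigma_injective : Function.Injective H.cuspSigma := by
  intro q q' h
  induction q using QuotientGroup.induction_on with | _ a => ?_
  induction q' using QuotientGroup.induction_on with | _ a' => ?_
  have h1 : ∀ f : F, compM a⁻¹ (real f) = compM a'⁻¹ (real f) := by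
    intro f
    have e1 := H.merCE_cuspSigma a f
    have e2 := H.merCE_cuspSigma a' f
    rw [h] at e1
    exact merCE_eq_of_eq (natCast_pos' N) e1 e2
  have h2 : a'⁻¹ * a ∈ Γ' := by
    apply H.sep
    intro f
    rw [compM_mul, ← h1 f, ← compM_mul, inv_mul_cancel, compM_one]
  exact (QuotientGroup.eq.mpr h2).symm

/-- (C1) all the cusp embeddings agree at `jF`, with value `j(t^N)` -/
theorem cuspSigma_jF (q : SL(2, ℤ) ⧸ Γ') :
    H.cuspSigma q jF = ModularCurve.qExpand ℂ N (ModularCurve.jqModC ℂ) := by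
  induction q using QuotientGroup.induction_on with | _ a => ?_
  obtain ⟨jH, hjH, hj⟩ := H.real_j
  apply H.cuspSer_eq_of_merCE
  rw [hj, compM_algebraMap, compSL_jH hjH]
  exact merCE_jH N hjH

theorem order_cuspSigma_jF (q : SL(2, ℤ) ⧸ Γ') : (H.cuspSigma q jF).order = -(N : ℤ) := by
  rw [H.cuspSigma_jF, Fermat.Agent.S24_helper76.CuspOrbit.order_qExpand_jqModC]

include H in
theorem jF_ne_zero : jF ≠ 0 := by
  intro h0
  have h1 := H.order_cuspSigma_jF ((1 : SL(2, ℤ)) : SL(2, ℤ) ⧸ Γ')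
  have h2 : H.cuspSigma ((1 : SL(2, ℤ)) : SL(2, ℤ) ⧸ Γ') jF = 0 :=
    (congrArg (H.cuspSigma ((1 : SL(2, ℤ)) : SL(2, ℤ) ⧸ Γ')) h0).trans (map_zero _)
  rw [h2, HahnSeries.order_zero] at h1
  have : (N : ℤ) ≠ 0 := by exact_mod_cast NeZero.ne N
  omega

include H in
/-- `jF` is transcendental over `ℂ` -/
theorem transcendental_jF : Transcendental ℂ jF := by
  intro halg
  have hint : IsIntegral ℂ jF := halg.isIntegral
  have hdeg := IsAlgClosed.degree_eq_one_of_irreducible ℂ (minpoly.irreducible hint)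
  obtain ⟨c, hc⟩ := minpoly.mem_range_of_degree_eq_one ℂ jF hdeg
  have h1 := H.order_cuspSigma_jF ((1 : SL(2, ℤ)) : SL(2, ℤ) ⧸ Γ')
  have h3 : H.cuspSigma ((1 : SL(2, ℤ)) : SL(2, ℤ) ⧸ Γ') jF = HahnSeries.C c :=
    (congrArg (H.cuspSigma ((1 : SL(2, ℤ)) : SL(2, ℤ) ⧸ Γ')) hc.symm).trans
      ((AlgHom.commutes _ c).trans (EvalBridge.algebraMap_laurent_eq_C c))
  rw [h3] at h1
  have h2 : (HahnSeries.C c : LaurentSeries ℂ).order = 0 := by
    by_cases hc0 : c = 0
    · rw [hc0, map_zero, HahnSeries.order_zero]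
    · exact HahnSeries.order_C
  rw [h2] at h1
  have : (N : ℤ) ≠ 0 := by exact_mod_cast NeZero.ne N
  omega

/-- (C4) compatibility of the cusp embeddings with `T`: `σ_{T q} = (t ↦ ζ_N⁻¹ t) ∘ σ_q` -/
theorem cuspSigma_T_smul (q : SL(2, ℤ) ⧸ Γ') (f : F) :
    H.cuspSigma (ModularGroup.T • q) f = scaleHom ℂ (zetaC N)⁻¹ (H.cuspSigma q f) := by
  induction q using QuotientGroup.induction_on with | _ a => ?_
  have h1 : ModularGroup.T • (a : SL(2, ℤ) ⧸ Γ') = ((ModularGroup.T * a : SL(2, ℤ)) : SL(2, ℤ) ⧸ Γ') :=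
    rfl
  rw [h1]
  have e1 := H.merCE_cuspSigma a f
  have e2 := H.merCE_cuspSigma (ModularGroup.T * a) f
  rw [mul_inv_rev, compM_mul] at e2
  exact merCE_compM_T_inv N e1 e2

/-- the norm to `ℂ(jF)` is the product of the cusp expansions -/
theorem cuspSigma_norm (f : F) (q₀ : SL(2, ℤ) ⧸ Γ') :
    letI := H.fintypeQuotient
    letI := H.finite
    H.cuspSigma q₀ ((Algebra.norm ℂ⟮jF⟯ f : ℂ⟮jF⟯) : F) = ∏ q, H.cuspSigma q f := by
  letI := H.fintypeQuotient
  letI := H.finite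
  have hcard : Fintype.card (SL(2, ℤ) ⧸ Γ') = Module.finrank ℂ⟮jF⟯ F := by
    rw [← H.deg, Nat.card_eq_fintype_card]
  have hinj : Function.Injective (fun q => ((H.cuspSigma q : F →ₐ[ℂ] LaurentSeries ℂ) : F →+* LaurentSeries ℂ)) := by
    intro q q' h
    apply H.cuspSigma_injective
    ext f : 1
    exact congrArg (fun φ : F →+* LaurentSeries ℂ => φ f) h
  exact Fermat.Agent.S24_helper66.ringHom_norm_eq_prod jF
    (fun q => ((H.cuspSigma q : F →ₐ[ℂ] LaurentSeries ℂ) : F →+* LaurentSeries ℂ)) q₀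
    (fun q c => by
      show H.cuspSigma q (algebraMap ℂ F c) = H.cuspSigma q₀ (algebraMap ℂ F c)
      rw [AlgHom.commutes, AlgHom.commutes])
    (fun q => by
      show H.cuspSigma q jF = H.cuspSigma q₀ jF
      rw [H.cuspSigma_jF, H.cuspSigma_jF]) hinj hcard f

end CuspHyp

end

end Fermat.Agent.DS.P3.DictCusp
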