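/-
GATE-N / S48 J1-port, P3 (EIG twin), leaf S48-P3-DICT-CUSP, part 2 (helper80).

The places of `F` over `jF = ∞` from the cusp embeddings of `Emb.lean` (Γ-GENERIC twin of
`GJ/J2/Dict/CuspC` §Orbit): orbit lemma of S24 at `x = jF⁻¹`, `e₀ = N`, group element `T`.

* `cuspData H`, `cuspPlace H q`, `cuspMult H q` with
  `order_cuspSigma : (σ_q f).order = cuspMult q * (cuspPlace q).ord f`;
* `exists_cuspEquiv` : places over `jF = ∞` ≃ `T`-orbits on `SL(2,ℤ)/Γ'`, ramification = orbit size;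
* `exists_eq_cuspPlace` (exhaustion), `cuspPlace_eq_iff`, `ord_jF_inv_cuspPlace`,
  `cuspMult_mul_width`, `width`, `T_pow_width_smul`, `conj_T_pow_width_mem`.
-/
import Fermat.Agent.DS.P3.DictCusp.Emb

set_option autoImplicit false
set_option linter.unusedSectionVars false
set_option linter.style.haveILetI false

open UpperHalfPlane HahnSeries IntermediateField AlgebraicCurve MulAction
open scoped MatrixGroups Manifold
open Fermat.Agent.S24 Fermat.Agent.S24_helper82 Fermat.Agent.S28 Fermat.Agent.S28.CuspExp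
open Fermat.Agent.S24_helper76.CuspOrbit
open Fermat.Agent.GJ.TwEis (MerCE)
open Fermat.Agent.GJ.Dict.Cusp (zetaC zetaC_isPrimitiveRoot)

namespace Fermat.Agent.DS.P3.DictCusp

noncomputable section

theorem pow_card_orbit_zpowers_smul {G α : Type*} [Group G] [MulAction G α] (g : G) (a : α)
    [Finite (orbit (Subgroup.zpowers g) a)] :
    g ^ Nat.card (orbit (Subgroup.zpowers g) a) • a = a := by
  have := Fintype.ofFinite (orbit (Subgroup.zpowers g) a)
  rw [Nat.card_eq_fintype_card, ← MulAction.minimalPeriod_eq_card,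
    ← MulAction.period_eq_minimalPeriod]
  exact MulAction.pow_period_smul g a

namespace CuspHyp

variable {F : Type*} [Field F] [Algebra ℂ F]
variable {real : F →+* Mer} {jF : F} {Γ' : Subgroup SL(2, ℤ)} {N : ℕ} [NeZero N]
  (H : CuspHyp real jF Γ' N)

/-- the orbit data at `jF = ∞`: the valuations `ord_t ∘ σ_q`, common value `N` at `jF⁻¹` -/
def cuspData : OrbitData ℂ (jF⁻¹) (SL(2, ℤ) ⧸ Γ') where
  V q := IntVal.comap (H.cuspSigma q) (orderIntVal ℂ)
  e₀ := N
  he₀ := NeZero.pos N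
  hx0 := inv_ne_zero H.jF_ne_zero
  hVx q := by
    rw [IntVal.comap_apply, map_inv₀, IntVal.map_inv, orderIntVal_apply, H.order_cuspSigma_jF,
      neg_neg]
    exact H.cuspSigma_ne_zero q H.jF_ne_zero

theorem cuspData_V (q : SL(2, ℤ) ⧸ Γ') (f : F) :
    H.cuspData.V q f = (H.cuspSigma q f).order := rfl

theorem cuspData_e₀ : H.cuspData.e₀ = N := rfl

/-- the norm hypothesis of the orbit lemma at the cusp -/
theorem hnorm (f : F) (hf : f ≠ 0) (i₀ : SL(2, ℤ) ⧸ Γ') :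
    letI := H.fintypeQuotient
    letI := H.finite
    ∑ i, H.cuspData.V i f =
      H.cuspData.V i₀ (algebraMap ℂ⟮jF⟯ F (Algebra.norm ℂ⟮jF⟯ f)) := by
  letI := H.fintypeQuotient
  letI := H.finite
  exact hnorm_of_prod ℂ⟮jF⟯ (orderIntVal ℂ) H.cuspSigma
    (fun f i₀ => H.cuspSigma_norm f i₀) f hf i₀

theorem hsymm (i : SL(2, ℤ) ⧸ Γ') (f : F) :
    H.cuspData.V (ModularGroup.T • i) f = H.cuspData.V i f :=
  order_sigma_smul H.cuspSigma ModularGroup.T (zetaC N)⁻¹ H.cuspSigma_T_smul i f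

theorem hg (i : SL(2, ℤ) ⧸ Γ') : ModularGroup.T ^ H.cuspData.e₀ • i = i :=
  pow_smul_eq_of_injective H.cuspSigma ModularGroup.T (zetaC N)⁻¹ H.cuspSigma_T_smul
    H.cuspSigma_injective (zetaC_isPrimitiveRoot N).inv.pow_eq_one i

theorem hdiv (i : SL(2, ℤ) ⧸ Γ') (h : ℕ) (hh : h ∣ H.cuspData.e₀)
    (hi : ModularGroup.T ^ h • i = i) (f : F) (hf : f ≠ 0) :
    ((H.cuspData.e₀ / h : ℕ) : ℤ) ∣ H.cuspData.V i f := by
  have hζ : IsPrimitiveRoot (zetaC N)⁻¹ N := (zetaC_isPrimitiveRoot N).inv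
  have hh' : h ∣ N := hh
  have h0 : h ≠ 0 := fun h0 => NeZero.ne N (by rw [h0, zero_dvd_iff] at hh'; exact hh')
  have hord : orderOf ((zetaC N)⁻¹ ^ h) = N / h := by
    rw [orderOf_pow_of_dvd h0 (by rw [← hζ.eq_orderOf]; exact hh'), ← hζ.eq_orderOf]
  have := dvd_order_of_pow_smul_eq H.cuspSigma ModularGroup.T (zetaC N)⁻¹
    H.cuspSigma_T_smul hi hf
  rw [hord] at this
  exact this

/-- the place of `F` at the cusp `a⁻¹ ∞` (`q = a Γ'`) -/
def cuspPlace (q : SL(2, ℤ) ⧸ Γ') : Place ℂ F := (H.cuspData.place q).1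

/-- the ratio `N / width` at the cusp attached to `q` -/
def cuspMult (q : SL(2, ℤ) ⧸ Γ') : ℤ := H.cuspData.mult q

theorem cuspMult_pos (q : SL(2, ℤ) ⧸ Γ') : 0 < H.cuspMult q := H.cuspData.mult_pos q

theorem ord_jF_inv_cuspPlace_pos (q : SL(2, ℤ) ⧸ Γ') : 0 < (H.cuspPlace q).ord jF⁻¹ :=
  (H.cuspData.place q).2

theorem ord_jF_cuspPlace_neg (q : SL(2, ℤ) ⧸ Γ') : (H.cuspPlace q).ord jF < 0 := by
  have h := H.ord_jF_inv_cuspPlace_pos q
  rw [Place.ord_inv] at h
  omega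

/-- **the order of the cusp expansion** in `t = 𝕢_N` is `N / width` times the order at the
cusp place -/
theorem order_cuspSigma (q : SL(2, ℤ) ⧸ Γ') {f : F} (hf : f ≠ 0) :
    (H.cuspSigma q f).order = H.cuspMult q * (H.cuspPlace q).ord f :=
  H.cuspData.eq_mult_mul_ord q hf

theorem cuspMult_mul_ord_jF_inv (q : SL(2, ℤ) ⧸ Γ') :
    H.cuspMult q * (H.cuspPlace q).ord jF⁻¹ = N :=
  H.cuspData.mult_mul_ord_x q

include H in
theorem transcendental_jF_inv : Transcendental ℂ jF⁻¹ :=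
  Norm.transcendental_inv H.transcendental_jF

/-- **The orbit lemma at `jF = ∞`**: the places of `F` over `jF = ∞` correspond to the orbits of
`T` on `SL(2,ℤ)/Γ'`; the ramification index is the size of the orbit (the width). -/
theorem exists_cuspEquiv :
    ∃ φ : orbitRel.Quotient (Subgroup.zpowers ModularGroup.T) (SL(2, ℤ) ⧸ Γ') ≃ Fibre ℂ jF⁻¹,
      (∀ q : SL(2, ℤ) ⧸ Γ', φ (Quotient.mk'' q) = H.cuspData.place q) ∧
      ∀ o, ((φ o).1.ord jF⁻¹ : ℤ) = Nat.card o.orbit := by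
  letI := H.fintypeQuotient
  have hfd : FiniteDimensional ℂ⟮jF⟯ F := H.finite
  have hk : ℂ⟮jF⟯ = ℂ⟮jF⁻¹⟯ := (Norm.adjoin_simple_inv (K := ℂ) jF).symm
  have hfd' : FiniteDimensional ℂ⟮jF⁻¹⟯ F := hk ▸ hfd
  obtain ⟨hfin, hN, hWA⟩ := Norm.fibre_package jF⁻¹ H.transcendental_jF_inv ℂ⟮jF⟯ hk
  exact Fermat.Agent.S24.orbit_lemma ℂ⟮jF⟯ jF⁻¹ hN hWA ModularGroup.T H.cuspData
    (fun f hf i₀ => H.hnorm f hf i₀) H.hsymm H.hg H.hdiv

/-- **Exhaustion**: every place at which `jF` has a pole is a cusp place. -/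
theorem exists_eq_cuspPlace (w : Place ℂ F) (hw : w.ord jF < 0) :
    ∃ q : SL(2, ℤ) ⧸ Γ', w = H.cuspPlace q := by
  obtain ⟨φ, hφ, -⟩ := H.exists_cuspEquiv
  have hw' : 0 < w.ord jF⁻¹ := by rw [Place.ord_inv]; omega
  obtain ⟨o, ho⟩ := φ.surjective ⟨w, hw'⟩
  induction o using Quotient.inductionOn with | _ q => ?_
  refine ⟨q, ?_⟩
  have h1 : φ (Quotient.mk _ q) = H.cuspData.place q := hφ q
  rw [h1] at ho
  exact (congrArg Subtype.val ho).symm

/-- two cusp places agree iff the cosets are in the same `T`-orbit -/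
theorem cuspPlace_eq_iff (q q' : SL(2, ℤ) ⧸ Γ') :
    H.cuspPlace q = H.cuspPlace q' ↔
      q ∈ MulAction.orbit (Subgroup.zpowers ModularGroup.T) q' := by
  obtain ⟨φ, hφ, -⟩ := H.exists_cuspEquiv
  have h1 : φ (Quotient.mk'' q) = H.cuspData.place q := hφ q
  have h2 : φ (Quotient.mk'' q') = H.cuspData.place q' := hφ q'
  constructor
  · intro h
    have h3 : φ (Quotient.mk'' q) = φ (Quotient.mk'' q') := by
      rw [h1, h2]
      exact Subtype.ext h
    have h4 := φ.injective h3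
    exact MulAction.orbitRel_apply.mp (Quotient.exact' h4)
  · intro h
    have h4 : (Quotient.mk'' q :
        orbitRel.Quotient (Subgroup.zpowers ModularGroup.T) (SL(2, ℤ) ⧸ Γ')) =
        Quotient.mk'' q' := Quotient.sound' (MulAction.orbitRel_apply.mpr h)
    have h3 : H.cuspData.place q = H.cuspData.place q' := by
      rw [← h1, ← h2, h4]
    exact congrArg Subtype.val h3

/-- the width of the cusp attached to `q`: the size of the `T`-orbit of the coset `q` -/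
def width (_H : CuspHyp real jF Γ' N) (q : SL(2, ℤ) ⧸ Γ') : ℕ :=
  Nat.card (MulAction.orbit (Subgroup.zpowers ModularGroup.T) q)

/-- the ramification index at a cusp place is the width (the size of the `T`-orbit) -/
theorem ord_jF_inv_cuspPlace (q : SL(2, ℤ) ⧸ Γ') :
    (H.cuspPlace q).ord jF⁻¹ = H.width q := by
  obtain ⟨φ, hφ, hord⟩ := H.exists_cuspEquiv
  have h1 : φ (Quotient.mk'' q) = H.cuspData.place q := hφ q
  have h2 := hord (Quotient.mk'' q)
  rw [h1] at h2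
  rw [cuspPlace, h2, MulAction.orbitRel.Quotient.orbit_mk, width]

/-- `cuspMult * width = N` -/
theorem cuspMult_mul_width (q : SL(2, ℤ) ⧸ Γ') : H.cuspMult q * (H.width q : ℤ) = N := by
  rw [← H.ord_jF_inv_cuspPlace, H.cuspMult_mul_ord_jF_inv]

theorem width_pos (q : SL(2, ℤ) ⧸ Γ') : 0 < H.width q := by
  have h := H.cuspMult_mul_width q
  rcases Nat.eq_zero_or_pos (H.width q) with h0 | h0
  · rw [h0] at h
    have : (N : ℤ) ≠ 0 := by exact_mod_cast NeZero.ne N
    simp at h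
    exact absurd h.symm this
  · exact h0

theorem ord_jF_cuspPlace (q : SL(2, ℤ) ⧸ Γ') : (H.cuspPlace q).ord jF = -(H.width q : ℤ) := by
  have h := H.ord_jF_inv_cuspPlace q
  rw [Place.ord_inv] at h
  omega

/-- `T ^ width` fixes the coset -/
theorem T_pow_width_smul (q : SL(2, ℤ) ⧸ Γ') : ModularGroup.T ^ H.width q • q = q := by
  have := H.finite_quotient
  exact pow_card_orbit_zpowers_smul ModularGroup.T q

/-- the parabolic element `a⁻¹ T^w a` of the cusp attached to `a Γ'` lies in `Γ'` -/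
theorem conj_T_pow_width_mem (a : SL(2, ℤ)) :
    a⁻¹ * ModularGroup.T ^ H.width (a : SL(2, ℤ) ⧸ Γ') * a ∈ Γ' := by
  have h1 := H.T_pow_width_smul (a : SL(2, ℤ) ⧸ Γ')
  have h2 : ModularGroup.T ^ H.width (a : SL(2, ℤ) ⧸ Γ') • (a : SL(2, ℤ) ⧸ Γ') =
      ((ModularGroup.T ^ H.width (a : SL(2, ℤ) ⧸ Γ') * a : SL(2, ℤ)) : SL(2, ℤ) ⧸ Γ') := rfl
  rw [h2] at h1
  have h3 := QuotientGroup.eq.mp h1.symm
  rwa [← mul_assoc] at h3

end CuspHyp

end

end Fermat.Agent.DS.P3.DictCusp
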