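/-
GATE-N / S48 J1-port, P3 (EIG twin), leaf S48-P3-DICT-CUSP, part 3 (helper80): consumer statements.

* `exists_cusp_chart` : for every place `Q` of `F` with `Q.ord jF < 0` there are `g ∈ SL(2,ℤ)`,
  `w e > 0` with `w * e = N`, `g T^w g⁻¹ ∈ Γ'`, such that every `u ≠ 0` has a cusp expansion `L ≠ 0`
  of `(real u) ∘ g` in `𝕢_{w e}` with `L.order = e * Q.ord u`
  = the arguments `(g, w, e, hw, he, hmem, hL, hL0, hdict)` of helper94's
  `PDivCuspG.dvd_ord_of_merCE` VERBATIM;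
* `dvd_ord_of_datum_cusp` : **(P), cusp half**: the `u`-part of a Kummer datum of a parabolic
  homomorphism `ψ : Γ → ℤ/p` (`Γ ≤ Γ'` with regular cusps) is `p`-divisible at every place over
  `jF = ∞`;
* `mem_Gamma1_of_trace_two` / `hreg_Gamma1` : regularity of the cusps of `Γ₁(M)`, `M ∤ 4`.
-/
import Fermat.Agent.DS.P3.DictCusp.Orbit

set_option autoImplicit false
set_option linter.unusedSectionVars false

open UpperHalfPlane HahnSeries IntermediateField AlgebraicCurve MulAction CongruenceSubgroup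
open scoped MatrixGroups Manifold
open Fermat.Agent.S24 Fermat.Agent.S24_helper82 Fermat.Agent.S28
open Fermat.Agent.GJ.TwEis (MerCE trace_conj_T_zpow)
open Fermat.Agent.DS.P3.KumCoreG Fermat.Agent.DS.P3.PDivCuspG

namespace Fermat.Agent.DS.P3.DictCusp

noncomputable section

namespace CuspHyp

variable {F : Type*} [Field F] [Algebra ℂ F]
variable {real : F →+* Mer} {jF : F} {Γ' : Subgroup SL(2, ℤ)} {N : ℕ} [NeZero N]
  (H : CuspHyp real jF Γ' N)

include H in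
/-- **The cusp chart of a place over `jF = ∞`** (inputs of `PDivCuspG.dvd_ord_of_merCE`). -/
theorem exists_cusp_chart (Q : Place ℂ F) (hQ : Q.ord jF < 0) :
    ∃ (g : SL(2, ℤ)) (w e : ℕ), 0 < w ∧ 0 < e ∧ w * e = N ∧
      g * ModularGroup.T ^ w * g⁻¹ ∈ Γ' ∧
      ∀ u : F, u ≠ 0 → ∃ L : LaurentSeries ℂ,
        MerCE ((w * e : ℕ) : ℝ) (compM g (real u)) L ∧ L ≠ 0 ∧ L.order = e * Q.ord u := by
  obtain ⟨q, rfl⟩ := H.exists_eq_cuspPlace Q hQ
  induction q using QuotientGroup.induction_on with | _ a => ?_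
  set q : SL(2, ℤ) ⧸ Γ' := (a : SL(2, ℤ) ⧸ Γ') with hq
  have hepos := H.cuspMult_pos q
  set e : ℕ := (H.cuspMult q).toNat with he
  have hee : (e : ℤ) = H.cuspMult q := Int.toNat_of_nonneg hepos.le
  have he0 : 0 < e := by
    have : (0 : ℤ) < (e : ℤ) := by rw [hee]; exact hepos
    exact_mod_cast this
  have hwe : H.width q * e = N := by
    have h1 := H.cuspMult_mul_width q
    have : ((H.width q * e : ℕ) : ℤ) = (N : ℤ) := by
      push_cast
      rw [hee, mul_comm]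
      exact h1
    exact_mod_cast this
  refine ⟨a⁻¹, H.width q, e, H.width_pos q, he0, hwe, ?_, fun u hu => ?_⟩
  · rw [inv_inv]
    exact H.conj_T_pow_width_mem a
  · refine ⟨H.cuspSigma q u, ?_, H.cuspSigma_ne_zero q hu, ?_⟩
    · rw [hwe]
      exact H.merCE_cuspSigma a u
    · rw [H.order_cuspSigma q hu, hee]

include H in
/-- **(P), cusp half**: the `u`-part of a Kummer datum of a parabolic homomorphism of a subgroup
`Γ` whose parabolic elements `g T^w g⁻¹ ∈ Γ'` all lie in `Γ` (regular cusps) is `p`-divisible at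
every place of `F` over `jF = ∞`. -/
theorem dvd_ord_of_datum_cusp {Γ : Subgroup SL(2, ℤ)}
    (hreg : ∀ (g : SL(2, ℤ)) (w : ℕ), g * ModularGroup.T ^ w * g⁻¹ ∈ Γ' →
      g * ModularGroup.T ^ w * g⁻¹ ∈ Γ)
    {p : ℕ} [NeZero p] {ζ : ℂ} {ψ : Additive ↥Γ →+ ZMod p}
    (hψ : ModularCurve.Period.IsParabolicHom Γ ψ) {h : Mer} {u : F}
    (D : IsKumDatumG Γ real ζ ψ h u) (Q : Place ℂ F) (hQ : Q.ord jF < 0) :
    (p : ℤ) ∣ Q.ord u := by
  obtain ⟨g, w, e, hw, he, -, hmem, hch⟩ := H.exists_cusp_chart Q hQ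
  obtain ⟨L, hL, hL0, hdict⟩ := hch u D.ne_zero
  exact dvd_ord_of_merCE hψ D g hw he (hreg g w hmem) hL hL0 hdict

end CuspHyp

/-! ### Regular cusps of `Γ₁(M)` -/

section Regular

/-- an element of trace `2` of `± Γ₁(M)` lies in `Γ₁(M)` if `M ∤ 4` -/
theorem mem_Gamma1_of_trace_two {M : ℕ} (hM : ¬ M ∣ 4) {x : SL(2, ℤ)}
    (htr : (x : Matrix (Fin 2) (Fin 2) ℤ).trace = 2)
    (hx : x ∈ Gamma1 M ∨ -x ∈ Gamma1 M) : x ∈ Gamma1 M := by
  rcases hx with hx | hx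
  · exact hx
  · exfalso
    apply hM
    rw [Gamma1_mem] at hx
    obtain ⟨h00, h11, -⟩ := hx
    rw [Matrix.trace_fin_two] at htr
    have e00 : ((-x : SL(2, ℤ)) 0 0 : ℤ) = -(x 0 0) := by
      simp [Matrix.SpecialLinearGroup.coe_neg]
    have e11 : ((-x : SL(2, ℤ)) 1 1 : ℤ) = -(x 1 1) := by
      simp [Matrix.SpecialLinearGroup.coe_neg]
    rw [e00] at h00
    rw [e11] at h11
    have h4 : ((4 : ℤ) : ZMod M) = 0 := by
      have h2 : ((x 0 0 + x 1 1 : ℤ) : ZMod M) = 2 := by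
        rw [htr]
        norm_num
      push_cast at h00 h11 h2 ⊢
      linear_combination (-1 : ZMod M) * h00 + (-1 : ZMod M) * h11 - h2
    have h5 := (ZMod.intCast_zmod_eq_zero_iff_dvd 4 M).mp h4
    exact_mod_cast h5

/-- **regularity of the cusps of `Γ₁(M)`, `M ∤ 4`**: the `hreg` hypothesis of
`CuspHyp.dvd_ord_of_datum_cusp` for `Γ = Γ₁(M)` and any `Γ' ⊆ ± Γ₁(M)`. -/
theorem hreg_Gamma1 {M : ℕ} (hM : ¬ M ∣ 4) {Γ' : Subgroup SL(2, ℤ)}
    (hΓ' : ∀ x ∈ Γ', x ∈ Gamma1 M ∨ -x ∈ Gamma1 M) (g : SL(2, ℤ)) (w : ℕ)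
    (h : g * ModularGroup.T ^ w * g⁻¹ ∈ Γ') : g * ModularGroup.T ^ w * g⁻¹ ∈ Gamma1 M := by
  refine mem_Gamma1_of_trace_two hM ?_ (hΓ' _ h)
  have := trace_conj_T_zpow g (w : ℤ)
  rwa [zpow_natCast] at this

end Regular

end

end Fermat.Agent.DS.P3.DictCusp
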